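import Mathlib

/-!
# Row RIBET, piece NE: the abstract "non-Eisenstein" lemma (helper583)

Let `p` be a prime, `V` a finite `𝔽_p`-vector space with a linear action of a group `G`, and
`χ : G →* 𝔽_pˣ` a character.  Suppose that every `g ∈ G` satisfies the *Eisenstein relation*
`(g - 1)(g - χ g) = 0` on `V`.  If `V` has no `G`-stable subspace other than `⊥` and `⊤`, then
`V` has no subspace at all other than `⊥` and `⊤`, and in particular `#V ≤ p`.

Proof.  `ker χ` acts through unipotent operators (`(h - 1)² = 0`), hence through a `p`-group, so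
it has a nonzero fixed vector; the fixed space is `G`-stable, hence everything.  So the
commutators act trivially, every `ker (g - 1)` is `G`-stable, and every `g` acts as the scalar
`1` or `χ g`.

Mathlib only.
-/

set_option autoImplicit false
set_option linter.unusedSectionVars false

namespace Fermat.Agent.Ribet.H583

section Abstract

variable {p : ℕ} [Fact p.Prime] {G V : Type*} [Group G] [AddCommGroup V] [Module (ZMod p) V]
  [DistribMulAction G V] [SMulCommClass G (ZMod p) V]

/-- The Eisenstein relation `(g - 1)(g - χ g) = 0` on `V`, for all `g`. -/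
def EisRel (G V : Type*) [Group G] [AddCommGroup V] [Module (ZMod p) V]
    [DistribMulAction G V] (χ : G →* (ZMod p)ˣ) : Prop :=
  ∀ (g : G) (v : V),
    g • g • v - ((1 : ZMod p) + (χ g : ZMod p)) • g • v + (χ g : ZMod p) • v = 0

/-- `V` has no `G`-stable subspace other than `⊥` and `⊤`. -/
def NoStable (p : ℕ) (G V : Type*) [Group G] [AddCommGroup V] [Module (ZMod p) V]
    [DistribMulAction G V] : Prop :=
  ∀ N : Submodule (ZMod p) V, (∀ (g : G), ∀ x ∈ N, g • x ∈ N) → N = ⊥ ∨ N = ⊤

/-- Elements of `ker χ` are unipotent: `h² = 2h - 1`. -/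
theorem eisRel_ker {χ : G →* (ZMod p)ˣ} (h : EisRel G V χ) {g : G} (hg : χ g = 1) (v : V) :
    g • g • v = (2 : ZMod p) • g • v - v := by
  have := h g v
  rw [hg, Units.val_one, one_smul] at this
  have h2 : ((1 : ZMod p) + 1) = 2 := by norm_num
  rw [h2] at this
  rw [← sub_eq_zero, ← this]
  abel

/-- Powers of a unipotent element: `h ^ n = n h - (n - 1)`. -/
theorem eisRel_ker_pow {χ : G →* (ZMod p)ˣ} (h : EisRel G V χ) {g : G} (hg : χ g = 1)
    (n : ℕ) (v : V) :
    g ^ (n + 1) • v = ((n : ZMod p) + 1) • g • v - (n : ZMod p) • v := by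
  induction n with
  | zero => simp
  | succ n ih =>
    rw [pow_succ', mul_smul, ih, smul_sub, smul_comm g ((n : ZMod p) + 1) (g • v),
      smul_comm g (n : ZMod p) v, eisRel_ker h hg]
    push_cast
    generalize g • v = w
    module

/-- Elements of `ker χ` have order dividing `p` on `V`. -/
theorem eisRel_ker_pow_p {χ : G →* (ZMod p)ˣ} (h : EisRel G V χ) {g : G} (hg : χ g = 1)
    (v : V) : g ^ p • v = v := by
  have hp : p.Prime := Fact.out
  obtain ⟨n, hn⟩ : ∃ n, p = n + 1 := ⟨p - 1, by have := hp.pos; omega⟩
  have hn0 : ((n : ZMod p) + 1) = 0 := by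
    have : ((n + 1 : ℕ) : ZMod p) = 0 := by rw [← hn]; exact ZMod.natCast_self p
    simpa using this
  have hn1 : (n : ZMod p) = -1 := by linear_combination hn0
  rw [hn, eisRel_ker_pow h hg, hn0, hn1]
  simp

/-- `ker χ` has a nonzero fixed vector (fixed point formula for `p`-groups). -/
theorem exists_fixed_ne_zero [Finite V] [Nontrivial V] {χ : G →* (ZMod p)ˣ}
    (h : EisRel G V χ) : ∃ b : V, b ≠ 0 ∧ ∀ g : G, χ g = 1 → g • b = b := by
  classical
  have hp : p.Prime := Fact.out
  let ρ : G →* Equiv.Perm V := MulAction.toPermHom G V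
  let H : Subgroup (Equiv.Perm V) := χ.ker.map ρ
  have hH : IsPGroup p H := by
    rintro ⟨x, hx⟩
    obtain ⟨g, hg, rfl⟩ := hx
    refine ⟨1, Subtype.ext ?_⟩
    rw [pow_one]
    change (ρ g) ^ p = 1
    rw [← map_pow]
    ext v
    exact eisRel_ker_pow_p h (MonoidHom.mem_ker.mp hg) v
  have hcard : p ∣ Nat.card V := by
    obtain ⟨v, hv⟩ := exists_ne (0 : V)
    have hpv : p • v = 0 := by
      rw [← Nat.cast_smul_eq_nsmul (ZMod p), ZMod.natCast_self, zero_smul]
    have : addOrderOf v = p := addOrderOf_eq_prime hpv hv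
    rw [← this]
    exact addOrderOf_dvd_natCard v
  have h0 : (0 : V) ∈ MulAction.fixedPoints H V := by
    rintro ⟨x, hx⟩
    obtain ⟨g, hg, rfl⟩ := hx
    change g • (0 : V) = 0
    exact smul_zero g
  obtain ⟨b, hb, hb0⟩ := hH.exists_fixed_point_of_prime_dvd_card_of_fixed_point V hcard h0
  refine ⟨b, fun hb' => hb0 hb'.symm, fun g hg => ?_⟩
  exact hb ⟨ρ g, Subgroup.mem_map_of_mem ρ (MonoidHom.mem_ker.mpr hg)⟩

/-- The space of `ker χ`-fixed vectors. -/
def kerFixed (V : Type*) [AddCommGroup V] [Module (ZMod p) V] [DistribMulAction G V]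
    [SMulCommClass G (ZMod p) V] (χ : G →* (ZMod p)ˣ) : Submodule (ZMod p) V where
  carrier := {v | ∀ g : G, χ g = 1 → g • v = v}
  add_mem' := fun {a b} ha hb g hg => by rw [smul_add, ha g hg, hb g hg]
  zero_mem' := fun g _ => smul_zero g
  smul_mem' := fun c v hv g hg => by rw [smul_comm, hv g hg]

theorem kerFixed_stable (χ : G →* (ZMod p)ˣ) (g : G) (x : V) (hx : x ∈ kerFixed V χ) :
    g • x ∈ kerFixed V χ := by
  intro k hk
  have hk' : χ (g⁻¹ * k * g) = 1 := by
    rw [map_mul, map_mul, hk, mul_one, ← map_mul, inv_mul_cancel, map_one]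
  have := hx (g⁻¹ * k * g) hk'
  calc k • g • x = g • (g⁻¹ * k * g) • x := by
        rw [← mul_smul, ← mul_smul]; congr 1; group
    _ = g • x := by rw [this]

/-- Under the Eisenstein relation, an irreducible `V` is fixed by `ker χ`. -/
theorem ker_acts_trivially [Finite V] {χ : G →* (ZMod p)ˣ} (h : EisRel G V χ)
    (hirr : NoStable p G V) (g : G) (hg : χ g = 1) (v : V) : g • v = v := by
  rcases subsingleton_or_nontrivial V with hV | hV
  · exact Subsingleton.elim _ _
  · obtain ⟨b, hb0, hb⟩ := exists_fixed_ne_zero h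
    rcases hirr (kerFixed V χ) (kerFixed_stable χ) with h1 | h1
    · exfalso
      apply hb0
      have : b ∈ kerFixed V χ := hb
      rw [h1] at this
      exact (Submodule.mem_bot _).mp this
    · have : v ∈ kerFixed V χ := by rw [h1]; exact Submodule.mem_top
      exact this g hg

/-- The fixed space of a single element. -/
def fixedOf (V : Type*) [AddCommGroup V] [Module (ZMod p) V] [DistribMulAction G V]
    [SMulCommClass G (ZMod p) V] (g : G) : Submodule (ZMod p) V where
  carrier := {v | g • v = v}
  add_mem' := fun {a b} ha hb => by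
    change g • (a + b) = a + b
    rw [smul_add, ha, hb]
  zero_mem' := smul_zero g
  smul_mem' := fun c v hv => by
    change g • c • v = c • v
    rw [smul_comm, hv]

/-- Under the Eisenstein relation, every element of `G` acts on an irreducible `V` as a scalar
(namely `1` or `χ g`). -/
theorem acts_as_scalar [Finite V] {χ : G →* (ZMod p)ˣ} (h : EisRel G V χ)
    (hirr : NoStable p G V) (g : G) :
    (∀ v : V, g • v = v) ∨ (∀ v : V, g • v = (χ g : ZMod p) • v) := by
  have hstab : ∀ (k : G), ∀ x ∈ fixedOf (p := p) V g, k • x ∈ fixedOf (p := p) V g := by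
    intro k x hx
    change g • k • x = k • x
    have hc : χ (k⁻¹ * g * k * g⁻¹) = 1 := by
      rw [map_mul, map_mul, map_mul, map_inv, map_inv, mul_comm ((χ k)⁻¹) (χ g),
        mul_assoc (χ g), inv_mul_cancel, mul_one, mul_inv_cancel]
    have h1 := ker_acts_trivially h hirr _ hc (g • x)
    have hx' : g • x = x := hx
    calc g • k • x = k • (k⁻¹ * g * k * g⁻¹) • g • x := by
          simp only [← mul_smul]
          congr 1; group
      _ = k • x := by rw [h1, hx']
  rcases hirr _ hstab with h1 | h1
  · right
    intro v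
    have hw : g • v - (χ g : ZMod p) • v ∈ fixedOf (p := p) V g := by
      change g • (g • v - (χ g : ZMod p) • v) = g • v - (χ g : ZMod p) • v
      rw [smul_sub, smul_comm g (χ g : ZMod p) v, ← sub_eq_zero, ← h g v]
      generalize g • g • v = a
      generalize g • v = b
      module
    rw [h1, Submodule.mem_bot, sub_eq_zero] at hw
    exact hw
  · left
    intro v
    have : v ∈ fixedOf (p := p) V g := by rw [h1]; exact Submodule.mem_top
    exact this

/-- **Abstract non-Eisenstein lemma.**  Under the Eisenstein relation, an irreducible `V` has no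
proper nonzero subspace at all. -/
theorem noSubmodule_of_eisRel [Finite V] {χ : G →* (ZMod p)ˣ} (h : EisRel G V χ)
    (hirr : NoStable p G V) (N : Submodule (ZMod p) V) : N = ⊥ ∨ N = ⊤ := by
  apply hirr
  intro g x hx
  rcases acts_as_scalar h hirr g with h1 | h1
  · rw [h1]; exact hx
  · rw [h1]; exact N.smul_mem _ hx

/-- **Abstract non-Eisenstein lemma, cardinality form.** -/
theorem card_le_of_eisRel [Finite V] {χ : G →* (ZMod p)ˣ} (h : EisRel G V χ)
    (hirr : NoStable p G V) : Nat.card V ≤ p := by
  have hp : p.Prime := Fact.out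
  rcases subsingleton_or_nontrivial V with hV | hV
  · rw [Nat.card_unique]
    exact hp.one_le
  · obtain ⟨v, hv⟩ := exists_ne (0 : V)
    have htop : Submodule.span (ZMod p) {v} = ⊤ := by
      rcases noSubmodule_of_eisRel h hirr (Submodule.span (ZMod p) {v}) with h1 | h1
      · exfalso
        apply hv
        have : v ∈ Submodule.span (ZMod p) {v} := Submodule.mem_span_singleton_self v
        rw [h1] at this
        exact (Submodule.mem_bot _).mp this
      · exact h1
    have hsurj : Function.Surjective (fun c : ZMod p => c • v) := by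
      intro w
      have : w ∈ Submodule.span (ZMod p) {v} := by rw [htop]; exact Submodule.mem_top
      obtain ⟨c, hc⟩ := Submodule.mem_span_singleton.mp this
      exact ⟨c, hc⟩
    have : NeZero p := ⟨hp.ne_zero⟩
    calc Nat.card V ≤ Nat.card (ZMod p) := Nat.card_le_card_of_surjective _ hsurj
      _ = p := Nat.card_zmod p

end Abstract

end Fermat.Agent.Ribet.H583
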