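import Fermat.Agent.Ribet.Spec
import Fermat.Agent.Ribet.H583.EisAbstract
import Fermat.Agent.Lib.Cheb.Chebotarev
import Fermat.Agent.Lib.Frob.Glue
import Fermat.Agent.Lib.Frob.A1.Main
import Fermat.Agent.Lib.Frob.A2.Main
import Fermat.Agent.Lib.VC.BaseChange
import Fermat.Agent.S29.H872.Cyclo
import Fermat.Agent.S59.H127.CardTorsion
import Fermat.Agent.S13.H891.Frey

/-!
# Row RIBET, piece NE: `NonEisensteinStatement` (helper583)

An irreducible `E[p]` (Frey curve) has, outside any finite set, a good prime `ℓ` of any integral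
model `W` with `a_ℓ(W) ≢ ℓ + 1 mod p`.

Inputs (all on main): qualitative Chebotarev (`Lib/Cheb`, Tier 2), the Frobenius relation
(`Lib/Frob`), the value of the cyclotomic character at Frobenius (`S29/H872`), `#E[p] = p²`
(`S59/H127`), transport of points along a change of variables (`Lib/VC`), and the abstract
lemma of `EisAbstract.lean`.
-/

set_option autoImplicit false
set_option linter.unusedSectionVars false

open WeierstrassCurve WeierstrassCurve.Affine WeierstrassCurve.Affine.Point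

namespace Fermat.Agent.Ribet.H583

/-- `ℚ̄`. -/
abbrev Qb583 : Type := AlgebraicClosure ℚ

/-- `Gal(ℚ̄/ℚ)`. -/
abbrev GQ583 : Type := Qb583 ≃ₐ[ℚ] Qb583

section Coord

variable (E : WeierstrassCurve ℚ)

/-- The coordinates of a point. -/
def coords583 : (E⁄Qb583).Point → Set Qb583
  | .zero => ∅
  | .some x y _ => {x, y}

theorem finite_coords583 (P : (E⁄Qb583).Point) : (coords583 E P).Finite := by
  cases P with
  | zero => exact Set.finite_empty
  | some x y h => exact (Set.finite_singleton y).insert x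

/-- Two automorphisms which agree on the coordinates of a point agree on the point. -/
theorem smul_eq_smul_of_coords583 (σ τ : GQ583) (P : (E⁄Qb583).Point)
    (h : ∀ x ∈ coords583 E P, τ x = σ x) : τ • P = σ • P := by
  cases P with
  | zero => rfl
  | some x y hxy =>
    rw [Point.algEquiv_smul_def, Point.algEquiv_smul_def, Point.map_some, Point.map_some,
      Point.some.injEq]
    exact ⟨h x (Set.mem_insert _ _), h y (Set.mem_insert_of_mem _ rfl)⟩

end Coord

section Level

variable (E : WeierstrassCurve ℚ) (p : ℕ) [Fact p.Prime]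

/-- Generators of the level field: the coordinates of the `p`-torsion points and the `p`-th
roots of unity. -/
def levelSet583 : Set Qb583 :=
  (⋃ P ∈ {P : (E⁄Qb583).Point | p • P = 0}, coords583 E P) ∪ {t : Qb583 | t ^ p = 1}

/-- The level field `ℚ(E[p], μ_p)`. -/
noncomputable def levelField583 : IntermediateField ℚ Qb583 :=
  IntermediateField.adjoin ℚ (levelSet583 E p)

theorem finite_levelSet583 [(E⁄Qb583).IsElliptic] : (levelSet583 E p).Finite := by
  classical
  have hp : p.Prime := Fact.out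
  have hfin := Fermat.Agent.S59.H127.finite_torsion (E⁄Qb583) p hp.one_le
  have hTfin : {P : (E⁄Qb583).Point | p • P = 0}.Finite := by
    have : {P : (E⁄Qb583).Point | p • P = 0} =
        ((Submodule.torsionBy ℤ (E⁄Qb583).Point ((p : ℕ) : ℤ) : Set (E⁄Qb583).Point)) := by
      ext P
      exact Fermat.Agent.S59.H127.mem_torsionBy_natCast_iff.symm
    rw [this]
    exact Set.toFinite _
  refine Set.Finite.union (hTfin.biUnion fun P _ => finite_coords583 E P) ?_
  have : {t : Qb583 | t ^ p = 1} = ↑(Polynomial.nthRoots p (1 : Qb583)).toFinset := by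
    ext t
    simp [Polynomial.mem_nthRoots hp.pos]
  rw [this]
  exact Finset.finite_toSet _

theorem finiteDimensional_levelField583 [(E⁄Qb583).IsElliptic] :
    FiniteDimensional ℚ (levelField583 E p) := by
  have : Finite (levelSet583 E p) := (finite_levelSet583 E p).to_subtype
  have halg : Algebra.IsAlgebraic ℚ Qb583 := AlgebraicClosure.isAlgebraic ℚ
  exact IntermediateField.finiteDimensional_adjoin fun x _ =>
    (Algebra.IsAlgebraic.isAlgebraic x).isIntegral

theorem smul_eq_of_levelField583 (σ τ : GQ583) (h : ∀ x ∈ levelField583 E p, τ x = σ x)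
    (P : (E⁄Qb583).Point) (hP : p • P = 0) : τ • P = σ • P := by
  apply smul_eq_smul_of_coords583
  intro x hx
  apply h
  apply IntermediateField.subset_adjoin
  left
  exact Set.mem_biUnion (show P ∈ {P : (E⁄Qb583).Point | p • P = 0} from hP) hx

theorem cycloChar_eq_of_levelField583 (σ τ : GQ583)
    (h : ∀ x ∈ levelField583 E p, τ x = σ x) :
    ExtCitation.cycloChar p τ = ExtCitation.cycloChar p σ := by
  have h1 : ExtCitation.cycloChar p (σ⁻¹ * τ) = 1 := by
    apply Fermat.Agent.S29.H872.cycloChar_eq_one_of_fixes_roots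
    intro t ht
    have ht' : t ∈ levelField583 E p := by
      apply IntermediateField.subset_adjoin
      right
      exact ht
    rw [AlgEquiv.mul_apply, h t ht']
    exact σ.symm_apply_apply t
  rw [map_mul, map_inv] at h1
  exact (inv_mul_eq_one.mp h1).symm

end Level

section Transport

open Fermat.Agent.Lib.VC

/-- Transfer of a quadratic relation for a Galois automorphism along a change of variables. -/
theorem rel_transfer583 (E E' : WeierstrassCurve ℚ) (C : VariableChange ℚ) (hC : C • E = E')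
    (σ : GQ583) (a b : ℤ) (n : ℕ)
    (h : ∀ Q : (E'⁄Qb583).Point, n • Q = 0 → σ • σ • Q - a • σ • Q + b • Q = 0)
    (P : (E⁄Qb583).Point) (hP : n • P = 0) : σ • σ • P - a • σ • P + b • P = 0 := by
  subst hC
  have hQ : n • (vcPointBC E C Qb583).symm P = 0 := by
    rw [← map_nsmul, hP, _root_.map_zero]
  have key : ∀ Q : ((C • E)⁄Qb583).Point,
      vcPointBC E C Qb583 (σ • Q) = σ • vcPointBC E C Qb583 Q :=
    fun Q => (map_vcPointBC E C σ.toAlgHom Q).symm
  have := congrArg (vcPointBC E C Qb583) (h _ hQ)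
  rw [_root_.map_zero, map_add, map_sub, map_zsmul, map_zsmul, key, key,
    AddEquiv.apply_symm_apply] at this
  exact this

/-- The Frobenius relation on `E`, for a Frobenius element at a good prime `ℓ ≥ 5` of an
integral model `W` of `E`. -/
theorem frobRel_on583 (E : WeierstrassCurve ℚ) (W : WeierstrassCurve ℤ)
    (hW : W.IsIntegralModelOf E) (ℓ : ℕ) (hℓ : ℓ.Prime) (h5 : 5 ≤ ℓ)
    (hgood : W.IsGoodPrimeFor ℓ) (A : ValuationSubring Qb583) (σ : GQ583)
    (hA : A.LiesOverPrime ℓ) (hσ : A.IsFrobeniusAt σ ℓ) (n : ℕ) (hn : 0 < n) (hℓn : ¬ ℓ ∣ n)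
    (P : (E⁄Qb583).Point) (hP : n • P = 0) :
    σ • σ • P - W.apOfModel ℓ • σ • P + (ℓ : ℤ) • P = 0 := by
  obtain ⟨C, hC⟩ := hW
  have hF : Fermat.Agent.Lib.Frob.FrobRelation :=
    Fermat.Agent.Lib.Frob.frobRelation_of_parts Fermat.Agent.Lib.Frob.frobRelationFin
      Fermat.Agent.Lib.Frob.reductionData
  exact rel_transfer583 E _ C hC σ _ _ n
    (fun Q hQ => hF W ℓ hℓ h5 hgood A σ hA hσ n hn hℓn Q hQ) P hP

end Transport

section Main

theorem frey_isElliptic583 (P : FreyPackage) : (P.freyCurve⁄Qb583).IsElliptic := by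
  constructor
  rw [isUnit_iff_ne_zero]
  change (P.freyCurve.map (algebraMap ℚ Qb583)).Δ ≠ 0
  rw [WeierstrassCurve.map_Δ]
  exact (_root_.map_ne_zero _).mpr (Fermat.Agent.S13.H891.freyCurve_Δ_ne_zero P)

/-- An integral model of a curve with nonzero discriminant has nonzero discriminant. -/
theorem model_Δ_ne_zero583 (E : WeierstrassCurve ℚ) (hE : E.Δ ≠ 0) (W : WeierstrassCurve ℤ)
    (hW : W.IsIntegralModelOf E) : W.Δ ≠ 0 := by
  obtain ⟨C, hC⟩ := hW
  intro h0
  have h1 : (W.map (Int.castRingHom ℚ)).Δ = 0 := by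
    rw [WeierstrassCurve.map_Δ, h0, _root_.map_zero]
  rw [← hC, WeierstrassCurve.variableChange_Δ] at h1
  rcases mul_eq_zero.mp h1 with h2 | h2
  · exact (pow_ne_zero 12 (Units.ne_zero C.u⁻¹)) h2
  · exact hE h2

/-- A prime outside the prime factors of `|Δ|` is a good prime. -/
theorem good_of_notMem583 (W : WeierstrassCurve ℤ) (hΔ : W.Δ ≠ 0) (ℓ : ℕ) (hℓ : ℓ.Prime)
    (h : ℓ ∉ W.Δ.natAbs.primeFactors) : W.IsGoodPrimeFor ℓ := by
  intro hdvd
  apply h
  rw [Nat.mem_primeFactors]
  exact ⟨hℓ, Int.natCast_dvd.mp hdvd, Int.natAbs_ne_zero.mpr hΔ⟩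

/-- **Piece NE**: the Eisenstein congruences `a_ℓ ≡ ℓ + 1` cannot hold at almost all good primes
when `E[p]` is irreducible. -/
theorem nonEisenstein583 : Spec.NonEisensteinStatement := by
  intro P W hW hirr S
  classical
  by_contra hcon
  have hcon' : ∀ ℓ : ℕ, ℓ.Prime → ℓ ∉ S → W.IsGoodPrimeFor ℓ →
      (P.p : ℤ) ∣ W.apOfModel ℓ - (ℓ + 1) := by
    intro ℓ h1 h2 h3
    by_contra h4
    exact hcon ⟨ℓ, h1, h2, h3, h4⟩
  have hpF : Fact P.p.Prime := ⟨P.pp⟩
  have hE : (P.freyCurve⁄Qb583).IsElliptic := frey_isElliptic583 P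
  have hΔ : W.Δ ≠ 0 :=
    model_Δ_ne_zero583 _ (Fermat.Agent.S13.H891.freyCurve_Δ_ne_zero P) W hW
  have hfinV : Finite (Submodule.torsionBy ℤ (P.freyCurve⁄Qb583).Point ((P.p : ℕ) : ℤ)) :=
    Fermat.Agent.S59.H127.finite_torsion (P.freyCurve⁄Qb583) P.p P.pp.one_le
  have hcard : Nat.card (Submodule.torsionBy ℤ (P.freyCurve⁄Qb583).Point ((P.p : ℕ) : ℤ))
      = P.p ^ 2 := Fermat.Agent.S59.H127.card_torsion_eq (P.freyCurve⁄Qb583) P.p
  have hrel : EisRel (p := P.p) GQ583
      (Submodule.torsionBy ℤ (P.freyCurve⁄Qb583).Point ((P.p : ℕ) : ℤ))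
      (ExtCitation.cycloChar P.p) := by
    intro g v
    obtain ⟨ℓ, A, τ, hℓ, hℓS, hA, hτ, -, hτg⟩ :=
      Fermat.Agent.Lib.Cheb.chebotarev (levelField583 P.freyCurve P.p)
        (finiteDimensional_levelField583 _ _) g
        (S ∪ W.Δ.natAbs.primeFactors ∪ {2, 3, P.p})
    simp only [Finset.mem_union, Finset.mem_insert, Finset.mem_singleton, not_or] at hℓS
    obtain ⟨⟨hℓS, hℓΔ⟩, hℓ2, hℓ3, hℓp⟩ := hℓS
    have h5 : 5 ≤ ℓ := by
      have h2 := hℓ.two_le
      rcases Nat.lt_or_ge ℓ 5 with h | h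
      · interval_cases ℓ
        · exact absurd rfl hℓ2
        · exact absurd rfl hℓ3
        · exact absurd hℓ (by decide)
      · exact h
    have hgood : W.IsGoodPrimeFor ℓ := good_of_notMem583 W hΔ ℓ hℓ hℓΔ
    have hdvd := hcon' ℓ hℓ hℓS hgood
    have hℓn : ¬ ℓ ∣ P.p := fun h => hℓp ((Nat.prime_dvd_prime_iff_eq hℓ P.pp).mp h)
    have hv : P.p • (v : (P.freyCurve⁄Qb583).Point) = 0 :=
      Fermat.Agent.S59.H127.mem_torsionBy_natCast_iff.mp v.2
    have hgv : P.p • (g • (v : (P.freyCurve⁄Qb583).Point)) = 0 :=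
      Fermat.Agent.S59.H127.mem_torsionBy_natCast_iff.mp (g • v).2
    have hfr := frobRel_on583 P.freyCurve W hW ℓ hℓ h5 hgood A τ hA hτ P.p P.pp.pos hℓn
      (v : (P.freyCurve⁄Qb583).Point) hv
    have e1 : τ • (v : (P.freyCurve⁄Qb583).Point) = g • (v : (P.freyCurve⁄Qb583).Point) :=
      smul_eq_of_levelField583 P.freyCurve P.p g τ hτg _ hv
    have e2 : τ • (g • (v : (P.freyCurve⁄Qb583).Point))
        = g • (g • (v : (P.freyCurve⁄Qb583).Point)) :=
      smul_eq_of_levelField583 P.freyCurve P.p g τ hτg _ hgv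
    rw [e1, e2] at hfr
    have hχ : ((ExtCitation.cycloChar P.p g : (ZMod P.p)ˣ) : ZMod P.p) = ((ℓ : ℤ) : ZMod P.p) := by
      rw [← cycloChar_eq_of_levelField583 P.freyCurve P.p g τ hτg,
        Fermat.Agent.S29.H872.cycloChar_frobenius P.p hℓ hℓp A hA τ hτ]
      simp
    have ha : (1 : ZMod P.p) + ((ℓ : ℤ) : ZMod P.p) = ((W.apOfModel ℓ : ℤ) : ZMod P.p) := by
      have := (ZMod.intCast_zmod_eq_zero_iff_dvd (W.apOfModel ℓ - (ℓ + 1)) P.p).mpr hdvd
      push_cast at this
      push_cast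
      linear_combination -this
    rw [hχ, ha, Int.cast_smul_eq_zsmul, Int.cast_smul_eq_zsmul]
    apply Subtype.ext
    exact hfr
  have hns : NoStable P.p GQ583
      (Submodule.torsionBy ℤ (P.freyCurve⁄Qb583).Point ((P.p : ℕ) : ℤ)) :=
    fun N hN => hirr.2 N hN
  have hle := card_le_of_eisRel hrel hns
  rw [hcard] at hle
  have h2 := P.pp.two_le
  nlinarith

end Main

end Fermat.Agent.Ribet.H583
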