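import Mathlib
import Fermat.Prelude.Def_FLTPrelim_ModularRep
import Fermat.Prelude.Def_WeierstrassCurve_PeuRamifiee

/-!
# RIBET row, glue: S40 is a special case of S39 (helper583)

`S39Statement` / `S40Statement` are the frozen statements S39 / S40 verbatim (as `Prop`s).
Good reduction at `p` makes the semistability hypothesis of S39 vacuous and the "peu ramifiée"
hypothesis `p ∣ v_p(Δ)` trivial (`v_p(Δ) = 0`).
-/

set_option autoImplicit false

namespace Fermat.Agent.Ribet.H583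

/-- The frozen statement S39, verbatim. -/
def S39Statement : Prop :=
  ∀ (W : WeierstrassCurve ℤ) (_hΔ : W.Δ ≠ 0)
    {p : ℕ} (_hp : p.Prime) (_hp2 : p ≠ 2)
    (_hsemi : (p : ℤ) ∣ W.Δ → ¬ (p : ℤ) ∣ W.c₄)
    (_hirr : W.ModRepIsIrreducible p)
    (_hfin : (W.map (Int.castRingHom ℚ)).IsPeuRamifieeAt p p)
    {M : ℕ} (_hM : 0 < M) (_hpM : p ∣ M) (_hp2M : ¬ p ^ 2 ∣ M)
    (_hmod : W.IsResiduallyModularOfLevel p M),
    W.IsResiduallyModularOfLevel p (M / p)

/-- The frozen statement S40, verbatim. -/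
def S40Statement : Prop :=
  ∀ (W : WeierstrassCurve ℤ) (_hΔ : W.Δ ≠ 0)
    {p : ℕ} (_hp : p.Prime) (_hp2 : p ≠ 2)
    (_hgood : W.IsGoodPrimeFor p)
    (_hirr : W.ModRepIsIrreducible p)
    {M : ℕ} (_hM : 0 < M) (_hpM : p ∣ M) (_hp2M : ¬ p ^ 2 ∣ M)
    (_hmod : W.IsResiduallyModularOfLevel p M),
    W.IsResiduallyModularOfLevel p (M / p)

/-- Good reduction at `p` implies "peu ramifiée at `p`" in the Prelude's sense. -/
theorem isPeuRamifieeAt_of_isGoodPrimeFor (W : WeierstrassCurve ℤ) {p : ℕ} (hp : p.Prime)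
    (hgood : W.IsGoodPrimeFor p) : (W.map (Int.castRingHom ℚ)).IsPeuRamifieeAt p p := by
  unfold WeierstrassCurve.IsPeuRamifieeAt
  have hΔ : (W.map (Int.castRingHom ℚ)).Δ = ((W.Δ : ℤ) : ℚ) := by
    rw [WeierstrassCurve.map_Δ]
    rfl
  rw [hΔ]
  have : Fact p.Prime := ⟨hp⟩
  have h0 : padicValRat p ((W.Δ : ℤ) : ℚ) = 0 := by
    rw [padicValRat.of_int]
    have : padicValInt p W.Δ = 0 := by
      apply padicValInt.eq_zero_of_not_dvd
      exact hgood
    rw [this]
    rfl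
  rw [h0]
  exact dvd_zero _

/-- S40 follows from S39. -/
theorem s40_of_s39 (h : S39Statement) : S40Statement := by
  intro W hΔ p hp hp2 hgood hirr M hM hpM hp2M hmod
  exact h W hΔ hp hp2 (fun hdvd => absurd hdvd hgood) hirr
    (isPeuRamifieeAt_of_isGoodPrimeFor W hp hgood) hM hpM hp2M hmod

end Fermat.Agent.Ribet.H583
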